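import Mathlib.Algebra.CharP.Algebra
import Mathlib.Algebra.CharP.Lemmas
import Mathlib.FieldTheory.KummerPolynomial
import Mathlib.FieldTheory.Perfect
import Mathlib.RingTheory.AlgebraicIndependent.TranscendenceBasis
import Mathlib.RingTheory.Smooth.AdicCompletion
import Mathlib.RingTheory.Smooth.Field

/-!
# Extensions of perfect fields are formally smooth

In characteristic `p` a maximal subring which contains all `p`th powers and meets the nilpotent
kernel in `0` maps onto the residue field.
-/

set_option autoImplicit false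

noncomputable section

open Polynomial

namespace Fermat.Agent.CohenStructure

variable {B k : Type*} [CommRing B] [Field k] (π : B →+* k)

/-- A subring containing the `p`th powers, injected by `π`. -/
def IsGood (p : ℕ) (S : Subring B) : Prop :=
  (∀ b : B, b ^ p ∈ S) ∧ ∀ s ∈ S, π s = 0 → s = 0

variable {π} {p : ℕ} [hp : Fact p.Prime] [CharP B p] [CharP k p]

omit [CharP k p] in
theorem exists_mem_mul_eq_one {S : Subring B} (hS : IsGood π p S) (hπ : Function.Surjective π)
    (hker : ∀ b, π b = 0 → b ^ p = 0) {s : B} (hs : s ∈ S) (hs0 : π s ≠ 0) :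
    ∃ t ∈ S, s * t = 1 := by
  obtain ⟨y, hy⟩ := hπ (π s)⁻¹
  refine ⟨s ^ (p - 1) * y ^ p, mul_mem (pow_mem hs _) (hS.1 y), ?_⟩
  have h0 : (s * y - 1) ^ p = 0 := hker _ (by rw [map_sub, map_mul, hy, map_one,
    mul_inv_cancel₀ hs0, sub_self])
  rw [sub_pow_char, one_pow, sub_eq_zero, mul_pow] at h0
  rw [← mul_assoc, ← pow_succ', Nat.sub_add_cancel hp.out.pos, h0]

/-- The image of a good subring. -/
def imageField {S : Subring B} (hS : IsGood π p S) (hπ : Function.Surjective π)
    (hker : ∀ b, π b = 0 → b ^ p = 0) : Subfield k where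
  __ := S.map π
  inv_mem' := by
    rintro _ ⟨s, hs, rfl⟩
    rcases eq_or_ne (π s) 0 with h | h
    · rw [h, inv_zero]
      exact ⟨0, S.zero_mem, map_zero π⟩
    · obtain ⟨t, ht, hst⟩ := exists_mem_mul_eq_one hS hπ hker hs h
      exact ⟨t, ht, eq_inv_of_mul_eq_one_right (by rw [← map_mul, hst, map_one])⟩

theorem exists_good_surjective (hπ : Function.Surjective π) (hker : ∀ b, π b = 0 → b ^ p = 0) :
    ∃ S : Subring B, IsGood π p S ∧ ∀ a, ∃ s ∈ S, π s = a := by
  have hbase : IsGood π p (frobenius B p).range := by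
    refine ⟨fun b => ⟨b, rfl⟩, ?_⟩
    rintro _ ⟨b, rfl⟩ h
    rw [frobenius_def, map_pow] at h
    exact hker b (eq_zero_of_pow_eq_zero h)
  obtain ⟨S, -, hS⟩ := zorn_le_nonempty₀ {S : Subring B | IsGood π p S}
    (fun c hc hch y hy => by
      have : Nonempty c := ⟨⟨y, hy⟩⟩
      refine ⟨⨆ T : c, (T : Subring B), ⟨fun b => ?_, fun s hs h => ?_⟩, fun z hz =>
        le_iSup (fun T : c => (T : Subring B)) ⟨z, hz⟩⟩
      · exact le_iSup (fun T : c => (T : Subring B)) ⟨y, hy⟩ ((hc hy).1 b)
      · obtain ⟨T, hT⟩ := (Subring.mem_iSup_of_directed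
          (directedOn_iff_directed.1 hch.directedOn)).1 hs
        exact (hc T.2).2 s hT h) _ hbase
  refine ⟨S, hS.prop, fun α => ?_⟩
  by_contra! hα
  obtain ⟨a, rfl⟩ := hπ α
  have : Nontrivial B := CharP.nontrivial_of_char_ne_one (v := p) hp.out.ne_one
  set L := imageField hS.prop hπ hker with hL
  have hmem : ∀ x : k, x ∈ L ↔ ∃ s ∈ S, π s = x := fun x => Iff.rfl
  set j : S →+* L := (π.comp S.subtype).codRestrict L fun s => ⟨s, s.2, rfl⟩ with hj
  have hjinj : Function.Injective j := (injective_iff_map_eq_zero j).2 fun s hs =>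
    Subtype.ext (hS.prop.2 _ s.2 (congrArg Subtype.val hs))
  set c : L := ⟨π a ^ p, (hmem _).2 ⟨a ^ p, hS.prop.1 a, map_pow π a p⟩⟩ with hc
  have hirr : Irreducible (X ^ p - C c : L[X]) := X_pow_sub_C_irreducible_of_prime hp.out fun b e =>
    hα _ b.2.choose_spec.1 (b.2.choose_spec.2.trans (frobenius_inj k p (congrArg Subtype.val e)))
  have hmin : X ^ p - C c = minpoly L (π a) :=
    minpoly.eq_of_irreducible_of_monic hirr
      (by
        rw [map_sub, map_pow, aeval_X, aeval_C]
        exact sub_eq_zero.2 rfl)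
      (monic_X_pow_sub_C c hp.out.ne_zero)
  set ev : S[X] →+* B := eval₂RingHom S.subtype a with hev
  have hgood : IsGood π p ev.range := by
    refine ⟨fun b => ⟨C ⟨b ^ p, hS.prop.1 b⟩, by simp [hev]⟩, ?_⟩
    rintro _ ⟨q, rfl⟩ hq
    set m : S[X] := X ^ p - C ⟨a ^ p, hS.prop.1 a⟩ with hm
    have hmm : m.Monic := monic_X_pow_sub_C _ hp.out.ne_zero
    have hev0 : ev m = 0 := by simp [hev, hm]
    have hsplit : ev q = ev (q %ₘ m) := by
      conv_lhs => rw [← modByMonic_add_div q m, map_add, map_mul, hev0, zero_mul, add_zero]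
    rw [hsplit] at hq ⊢
    have hdeg : ((q %ₘ m).map j).degree < (minpoly L (π a)).degree := by
      rw [← hmin, degree_X_pow_sub_C hp.out.pos]
      exact degree_map_le.trans_lt ((degree_modByMonic_lt q hmm).trans_eq
        (degree_X_pow_sub_C hp.out.pos _))
    have hzero : aeval (π a) ((q %ₘ m).map j) = 0 := by
      rw [aeval_def, eval₂_map, show (algebraMap L k).comp j = π.comp S.subtype from rfl,
        ← hom_eval₂]
      exact hq
    rw [(Polynomial.map_eq_zero_iff hjinj).1
      (eq_zero_of_dvd_of_degree_lt (minpoly.dvd L (π a) hzero) hdeg),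
      map_zero]
  have hle : S ≤ ev.range := fun s hs => ⟨C ⟨s, hs⟩, by simp [hev]⟩
  exact hα a (hS.le_of_ge hgood hle ⟨X, by simp [hev]⟩) rfl

/-- A surjection onto a field with square zero kernel splits, over any perfect field. -/
theorem exists_algHom_section {K : Type*} [Field K] [PerfectRing K p] [CharP K p] [Algebra K B]
    [Algebra K k] (f : B →ₐ[K] k) (hf : Function.Surjective f)
    (hker : ∀ b, f b = 0 → b ^ p = 0) :
    ∃ g : k →ₐ[K] B, f.comp g = AlgHom.id K k := by
  obtain ⟨S, hS, hsurj⟩ := exists_good_surjective (π := f.toRingHom) (p := p) hf hker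
  let e : S →+* k := f.toRingHom.comp S.subtype
  have hbij : Function.Bijective e :=
    ⟨(injective_iff_map_eq_zero e).2 fun s hs => Subtype.ext (hS.2 _ s.2 hs),
      fun a => let ⟨s, hs, h⟩ := hsurj a; ⟨⟨s, hs⟩, h⟩⟩
  let E := RingEquiv.ofBijective e hbij
  refine ⟨⟨S.subtype.comp E.symm.toRingHom, fun c => ?_⟩,
    AlgHom.ext fun a => E.apply_symm_apply a⟩
  obtain ⟨d, rfl⟩ := surjective_frobenius K p c
  have hmem : algebraMap K B (frobenius K p d) ∈ S := by
    rw [frobenius_def, map_pow]
    exact hS.1 _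
  change ((E.symm (algebraMap K k _) : S) : B) = _
  rw [show algebraMap K k (frobenius K p d) = E ⟨_, hmem⟩ from (f.commutes _).symm,
    E.symm_apply_apply]

/-- **Every extension of a perfect field is formally smooth.** -/
theorem formallySmooth_of_perfectField (K k : Type*) [Field K] [Field k] [Algebra K k]
    [PerfectField K] : Algebra.FormallySmooth K k := by
  obtain ⟨p, _⟩ := CharP.exists K
  rcases CharP.char_is_prime_or_zero K p with hp | rfl
  · have : Fact p.Prime := ⟨hp⟩
    have : CharP k p := charP_of_injective_algebraMap (algebraMap K k).injective p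
    have : PerfectRing K p := PerfectField.toPerfectRing p
    refine Algebra.FormallySmooth.of_comp_surjective fun B _ _ I hI f => ?_
    let A := AlgHom.equalizer ((Ideal.Quotient.mkₐ K I).comp (AlgHom.fst K B k))
      (f.comp (AlgHom.snd K B k))
    let π : A →ₐ[K] k := (AlgHom.snd K B k).comp A.val
    have hπ : Function.Surjective π := fun x => by
      obtain ⟨b, hb⟩ := Ideal.Quotient.mk_surjective (f x)
      exact ⟨⟨(b, x), hb⟩, rfl⟩
    have : CharP A p := charP_of_injective_algebraMap (algebraMap K A).injective p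
    obtain ⟨g, hg⟩ := exists_algHom_section π hπ fun x hx => by
      have hx' : (x : B × k).1 ∈ I := by
        rw [← Ideal.Quotient.eq_zero_iff_mem]
        have h := x.2
        change Ideal.Quotient.mk I (x : B × k).1 = f (x : B × k).2 at h
        rw [h, show (x : B × k).2 = 0 from hx, map_zero]
      have h2 : (x : B × k).1 ^ 2 = 0 := by
        have := Ideal.pow_mem_pow hx' 2
        rwa [hI] at this
      refine Subtype.ext (Prod.ext ?_ ?_)
      · change (x : B × k).1 ^ p = 0
        exact pow_eq_zero_of_le hp.two_le h2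
      · change (x : B × k).2 ^ p = 0
        rw [show (x : B × k).2 = 0 from hx, zero_pow hp.ne_zero]
    refine ⟨((AlgHom.fst K B k).comp A.val).comp g, AlgHom.ext fun x => ?_⟩
    have h : Ideal.Quotient.mk I ((g x : B × k).1) = f (g x : B × k).2 := (g x).2
    change Ideal.Quotient.mk I ((g x : B × k).1) = f x
    rw [h]
    exact congrArg f (AlgHom.congr_fun hg x)
  · have : CharZero K := CharP.charP_to_charZero K
    obtain ⟨s, hs⟩ := exists_isTranscendenceBasis K k
    have := hs.isAlgebraic_field
    have : Algebra.IsSeparable (IntermediateField.adjoin K (Set.range ((↑) : s → k))) k :=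
      inferInstance
    exact Algebra.FormallySmooth.of_algebraicIndependent_of_isSeparable hs.1

end Fermat.Agent.CohenStructure
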