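import Fermat.Agent.CohenStructure.Structure
import Mathlib.RingTheory.AdicCompletion.Noetherian
import Mathlib.RingTheory.KrullDimension.NonZeroDivisors
import Mathlib.RingTheory.WittVector.Complete
import Mathlib.RingTheory.WittVector.TeichmullerSeries
import Mathlib.RingTheory.WittVector.DiscreteValuationRing

/-!
# The structure theorem of Cohen in mixed characteristic with perfect residue field
-/

set_option autoImplicit false

noncomputable section

universe u

open IsLocalRing

namespace Fermat.Agent.CohenStructure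

variable {p : ℕ} [hp : Fact p.Prime]

theorem ghostComponent_mem_pow {A : Type*} [CommRing A] (I : Ideal A) (hpI : (p : A) ∈ I)
    {x : WittVector p A} (hx : ∀ i, x.coeff i ∈ I) (n : ℕ) :
    WittVector.ghostComponent n x ∈ I ^ (n + 1) := by
  rw [WittVector.ghostComponent_apply, aeval_wittPolynomial]
  refine Ideal.sum_mem _ fun i hi => ?_
  have hi : i ≤ n := Nat.lt_succ_iff.1 (Finset.mem_range.1 hi)
  have h := Ideal.mul_mem_mul (Ideal.pow_mem_pow hpI i)
    (Ideal.pow_mem_pow (hx i) (p ^ (n - i)))
  rw [← pow_add] at h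
  refine Ideal.pow_le_pow_right ?_ h
  have := Nat.lt_pow_self (n := n - i) hp.out.one_lt
  omega

/-- The ring of Witt vectors of a perfect residue ring maps to a complete ring. -/
theorem exists_wittHom {A k : Type*} [CommRing A] [CommRing k] [CharP k p] [PerfectRing k p]
    (I : Ideal A) [IsAdicComplete I A] (r : A →+* k) (hr : Function.Surjective r)
    (hker : RingHom.ker r = I) :
    ∃ φ : WittVector p k →+* A, ∀ x, r (φ x) = x.coeff 0 := by
  have hpI : (p : A) ∈ I := by rw [← hker, RingHom.mem_ker, map_natCast, CharP.cast_eq_zero]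
  let M := WittVector.map (p := p) r
  let q : (n : ℕ) → WittVector p A →+* A ⧸ I ^ (n + 1) := fun n =>
    (Ideal.Quotient.mk (I ^ (n + 1))).comp (WittVector.ghostComponent n)
  have hq : ∀ n, RingHom.ker M ≤ RingHom.ker (q n) := fun n x hx => by
    rw [RingHom.mem_ker] at hx ⊢
    refine Ideal.Quotient.eq_zero_iff_mem.2 (ghostComponent_mem_pow I hpI (fun i => ?_) n)
    rw [← hker, RingHom.mem_ker, ← WittVector.map_coeff, show WittVector.map r x = 0 from hx,
      WittVector.zero_coeff]
  let f : (n : ℕ) → WittVector p k →+* A ⧸ I ^ (n + 1) := fun n =>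
    RingHom.liftOfSurjective M (WittVector.map_surjective r hr) ⟨q n, hq n⟩
  have hf : ∀ n y, f n (M y) = q n y := fun n y => RingHom.liftOfSurjective_comp_apply ..
  let F : k →+* k := (frobeniusEquiv k p).symm.toRingHom
  let g : (n : ℕ) → WittVector p k →+* A ⧸ I ^ (n + 1) := fun n =>
    (f n).comp (WittVector.map (F ^ n))
  have hg : ∀ n a (b : A), r b = (F ^ n) a →
      g n (WittVector.teichmuller p a) = Ideal.Quotient.mk _ (b ^ p ^ n) := fun n a b hb => by
    change f n (WittVector.map (F ^ n) (WittVector.teichmuller p a)) = _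
    rw [WittVector.map_teichmuller, ← hb, ← WittVector.map_teichmuller, hf]
    simp [q, WittVector.ghostComponent_teichmuller]
  have hcompat : ∀ {n}, (Ideal.Quotient.factorPowSucc I (n + 1)).comp (g (n + 1)) = g n := by
    intro n
    refine WittVector.eq_of_apply_teichmuller_eq _ _ ⟨n + 1, ?_⟩ fun a => ?_
    · rw [← map_natCast (Ideal.Quotient.mk (I ^ (n + 1))), ← map_pow,
        Ideal.Quotient.eq_zero_iff_mem]
      exact Ideal.pow_mem_pow hpI _
    · obtain ⟨b, hb⟩ := hr ((F ^ (n + 1)) a)
      have hb' : r (b ^ p) = (F ^ n) a := by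
        rw [map_pow, hb, pow_succ', RingHom.mul_def, RingHom.comp_apply]
        exact frobeniusEquiv_symm_pow_p k p _
      rw [RingHom.comp_apply, hg _ _ _ hb, hg _ _ _ hb',
        show (b ^ p) ^ p ^ n = b ^ p ^ (n + 1) by rw [← pow_mul, ← pow_succ']]
      rfl
  have hmono : StrictMono fun n : ℕ => n + 1 := fun a b h => Nat.succ_lt_succ h
  refine ⟨IsAdicComplete.StrictMono.liftRingHom I hmono g hcompat, fun x => ?_⟩
  obtain ⟨y, hy⟩ := WittVector.map_surjective r hr x
  have h0 := IsAdicComplete.StrictMono.mk_liftRingHom I hmono g hcompat (n := 0) x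
  rw [show g 0 x = Ideal.Quotient.mk (I ^ (0 + 1)) (y.coeff 0) by
    change f 0 (WittVector.map (F ^ 0) x) = _
    rw [pow_zero, show WittVector.map (1 : k →+* k) x = M y by rw [hy]; ext; simp, hf]
    simp [q, WittVector.ghostComponent_apply]] at h0
  rw [← hy, WittVector.map_coeff, ← sub_eq_zero, ← map_sub, ← RingHom.mem_ker, hker, hy]
  simpa using Ideal.Quotient.eq.1 h0

variable (p) in
/-- **Cohen**: a complete noetherian local ring with perfect residue field of characteristic `p`
is a quotient of a power series ring over the Witt vectors. -/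
theorem exists_wittPowerSeries_surjection (A : Type u) [CommRing A] [IsLocalRing A]
    [IsNoetherianRing A] [IsAdicComplete (maximalIdeal A) A] [CharP (ResidueField A) p]
    [PerfectRing (ResidueField A) p] :
    ∃ φ : MvPowerSeries (Fin (maximalIdeal A).spanFinrank) (WittVector p (ResidueField A)) →+* A,
      Function.Surjective φ := by
  obtain ⟨ι, hι⟩ := exists_wittHom (p := p) (maximalIdeal A) (residue A) residue_surjective
    ker_residue
  obtain ⟨G, hG, hspan⟩ := Submodule.FG.exists_span_finset_card_eq_spanFinrank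
    (IsNoetherian.noetherian (maximalIdeal A))
  let x : Fin (maximalIdeal A).spanFinrank → A := fun i => (G.equivFinOfCardEq hG).symm i
  have hx : maximalIdeal A = Ideal.span (Set.range x) := by
    conv_lhs => rw [← hspan]
    rw [show Set.range x = (G : Set A) from (EquivLike.range_comp Subtype.val
      (G.equivFinOfCardEq hG).symm).trans Subtype.range_coe]
  obtain ⟨φ, hφC, hφX⟩ := exists_evalHom ι x fun i =>
    hx.symm ▸ Ideal.subset_span (Set.mem_range_self i)
  refine ⟨φ, evalHom_surjective φ (fun a => ⟨WittVector.teichmuller p (residue A a), ?_⟩) ?_⟩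
  · rw [← residue_eq_zero_iff, map_sub, hφC, hι, WittVector.teichmuller_coeff_zero, sub_self]
  · simp only [hφX]; exact hx

section coefficientwise

variable {σ W : Type*} [CommRing W]

theorem exists_eq_C_mul {c : W} {F : MvPowerSeries σ W} (h : ∀ m, c ∣ F.coeff m) :
    ∃ G, F = MvPowerSeries.C c * G := by
  choose G hG using h
  exact ⟨G, MvPowerSeries.ext fun m => by rw [MvPowerSeries.coeff_C_mul]; exact hG m⟩

theorem map_surjective_powerSeries {S : Type*} [CommRing S] (f : W →+* S)
    (hf : Function.Surjective f) : Function.Surjective (MvPowerSeries.map (σ := σ) f) := fun F => by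
  choose G hG using fun m => hf (F.coeff m)
  exact ⟨G, MvPowerSeries.ext fun m => (MvPowerSeries.coeff_map f m G).trans (hG m)⟩

theorem isPrecomplete_powerSeries (c : W) [IsPrecomplete (Ideal.span {c}) W] :
    IsPrecomplete (Ideal.span {MvPowerSeries.C (σ := σ) c}) (MvPowerSeries σ W) := by
  have key : ∀ (n : ℕ) (F : MvPowerSeries σ W),
      F ∈ (Ideal.span {MvPowerSeries.C (σ := σ) c}) ^ n •
          (⊤ : Submodule (MvPowerSeries σ W) (MvPowerSeries σ W)) ↔
        ∀ m, F.coeff m ∈ (Ideal.span {c}) ^ n • (⊤ : Submodule W W) := fun n F => by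
    simp only [smul_eq_mul, Ideal.mul_top, Ideal.span_singleton_pow, Ideal.mem_span_singleton,
      ← map_pow]
    refine ⟨?_, fun h => ?_⟩
    · rintro ⟨G, rfl⟩ m
      exact ⟨_, MvPowerSeries.coeff_C_mul ..⟩
    · obtain ⟨G, rfl⟩ := exists_eq_C_mul h
      exact dvd_mul_right _ _
  refine ⟨fun f hf => ?_⟩
  choose L hL using fun m : σ →₀ ℕ => IsPrecomplete.prec ‹IsPrecomplete (Ideal.span {c}) W›
    (f := fun n => (f n).coeff m) fun {a b} hab => by
      rw [SModEq.sub_mem, ← map_sub]
      exact (key a _).1 (SModEq.sub_mem.1 (hf hab)) m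
  refine ⟨(L : MvPowerSeries σ W), fun n => ?_⟩
  rw [SModEq.sub_mem, key]
  intro m
  rw [map_sub]
  exact SModEq.sub_mem.1 (hL m n)

end coefficientwise

variable (p) in
/-- **Cohen**: a complete regular local ring with perfect residue field of characteristic `p`,
unramified in the sense that `p` is a regular parameter, is a power series ring over the Witt
vectors. -/
theorem nonempty_ringEquiv_wittPowerSeries (A : Type u) [CommRing A] [IsRegularLocalRing A]
    [IsAdicComplete (maximalIdeal A) A] [CharP (ResidueField A) p]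
    [PerfectRing (ResidueField A) p] (hp2 : (p : A) ∉ maximalIdeal A ^ 2) :
    ∃ d : ℕ, ringKrullDim A = (d + 1 : ℕ) ∧
      Nonempty (A ≃+* MvPowerSeries (Fin d) (WittVector p (ResidueField A))) := by
  classical
  have hpA : (p : A) ∈ maximalIdeal A := by
    rw [← residue_eq_zero_iff, map_natCast, CharP.cast_eq_zero]
  have := RegularFactorial.isDomain_of_isRegularLocalRing A
  have hp0 : (p : A) ≠ 0 := fun h => hp2 (h ▸ Ideal.zero_mem _)
  have := RegularFactorial.isRegularLocalRing_quotient hpA hp2
  set mk := Ideal.Quotient.mk (Ideal.span {(p : A)}) with hmk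
  set d := (maximalIdeal (A ⧸ Ideal.span {(p : A)})).spanFinrank with hd
  have hdim : ringKrullDim A = (d + 1 : ℕ) := by
    rw [Nat.cast_add, Nat.cast_one, hd, IsRegularLocalRing.spanFinrank_maximalIdeal]
    exact le_antisymm (RegularFactorial.dim_le_dim_quotient_add_one hpA)
      (ringKrullDim_quotient_succ_le_of_nonZeroDivisor
        (mem_nonZeroDivisors_of_ne_zero hp0))
  obtain ⟨ι, hι⟩ := exists_wittHom (p := p) (maximalIdeal A) (residue A) residue_surjective
    ker_residue
  obtain ⟨G, hG, hspan⟩ := Submodule.FG.exists_span_finset_card_eq_spanFinrank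
    (IsNoetherian.noetherian (maximalIdeal (A ⧸ Ideal.span {(p : A)})))
  choose x hx using fun i : Fin d => Ideal.Quotient.mk_surjective
    ((G.equivFinOfCardEq hG).symm i : A ⧸ Ideal.span {(p : A)})
  have hxm : maximalIdeal (A ⧸ Ideal.span {(p : A)}) = Ideal.span (Set.range (mk ∘ x)) := by
    conv_lhs => rw [← hspan]
    rw [show mk ∘ x = Subtype.val ∘ (G.equivFinOfCardEq hG).symm from funext hx,
      EquivLike.range_comp, Subtype.range_coe]
  obtain ⟨φ, hφC, hφX⟩ := exists_evalHom ι x fun i => by
    by_contra h
    have hmem : mk (x i) ∈ maximalIdeal (A ⧸ Ideal.span {(p : A)}) :=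
      hxm ▸ Ideal.subset_span ⟨i, rfl⟩
    exact hmem ((notMem_maximalIdeal.1 h).map mk)
  set ψ := mk.comp φ with hψ
  have hgen : maximalIdeal (A ⧸ Ideal.span {(p : A)}) =
      Ideal.span (Set.range fun i => ψ (MvPowerSeries.X i)) := by
    rw [hxm]; simp [hψ, hφX, Function.comp_def]
  have hψsurj : Function.Surjective ψ := evalHom_surjective ψ (fun a => by
    obtain ⟨b, rfl⟩ := Ideal.Quotient.mk_surjective a
    refine ⟨WittVector.teichmuller p (residue A b), ?_⟩
    rw [hψ, RingHom.comp_apply, hφC, ← map_sub,
      ← RegularFactorial.map_maximalIdeal_quotient hpA]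
    refine Ideal.mem_map_of_mem mk ?_
    rw [← residue_eq_zero_iff, map_sub, hι, WittVector.teichmuller_coeff_zero, sub_self]) hgen
  have hφsurj : Function.Surjective φ := by
    have := isPrecomplete_powerSeries (σ := Fin d) (p : WittVector p (ResidueField A))
    have hI : (Ideal.span
        {MvPowerSeries.C (σ := Fin d) (p : WittVector p (ResidueField A))}).map φ =
        Ideal.span {(p : A)} := by
      rw [Ideal.map_span, Set.image_singleton, hφC, map_natCast]
    have : IsHausdorff ((Ideal.span
        {MvPowerSeries.C (σ := Fin d) (p : WittVector p (ResidueField A))}).map φ) A := by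
      rw [hI]
      exact ⟨fun z hz => IsHausdorff.haus ‹IsAdicComplete (maximalIdeal A) A›.toIsHausdorff z
        fun n => (hz n).mono (Submodule.smul_mono
          (pow_le_pow_left' ((Ideal.span_singleton_le_iff_mem _).2 hpA) n) le_rfl)⟩
    refine surjective_of_mk_map_comp_surjective
      (I := Ideal.span {MvPowerSeries.C (σ := Fin d) (p : WittVector p (ResidueField A))}) φ ?_
    rw [hI]
    exact hψsurj
  let M := MvPowerSeries.map (σ := Fin d)
    (WittVector.constantCoeff : WittVector p (ResidueField A) →+* ResidueField A)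
  have hMker : ∀ F, M F = 0 → ∃ G', F = MvPowerSeries.C (p : WittVector p (ResidueField A)) * G' :=
    fun F hF => exists_eq_C_mul fun m => Ideal.mem_span_singleton.1
      ((WittVector.mem_span_p_iff_coeff_zero_eq_zero _).2 (by
        simpa [M] using congrArg (MvPowerSeries.coeff m) hF))
  have hψker : RingHom.ker M ≤ RingHom.ker ψ := fun F hF => by
    obtain ⟨G', rfl⟩ := hMker F hF
    rw [RingHom.mem_ker, hψ, RingHom.comp_apply, map_mul, hφC, map_natCast, map_mul,
      Ideal.Quotient.eq_zero_iff_mem.2 (Ideal.mem_span_singleton_self _), zero_mul]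
  have hM : Function.Surjective M := map_surjective_powerSeries _
    (WittVector.constantCoeff_surjective p)
  let ψ' := RingHom.liftOfSurjective M hM ⟨ψ, hψker⟩
  have hψ' : ∀ F, ψ' (M F) = ψ F := fun F => RingHom.liftOfSurjective_comp_apply ..
  have hψ'inj : Function.Injective ψ' := evalHom_injective d _ rfl ψ' (by
    rw [hgen]
    simp only [← hψ', M, MvPowerSeries.map_X])
  have hφinj : Function.Injective φ := by
    refine (injective_iff_map_eq_zero φ).2 fun F hF => ?_
    have hdiv : ∀ (n : ℕ) F, φ F = 0 → ∀ m,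
        (p : WittVector p (ResidueField A)) ^ n ∣ MvPowerSeries.coeff m F := by
      intro n
      induction n with
      | zero => intro F _ m; simp
      | succ n ih =>
        intro F hF m
        obtain ⟨G', rfl⟩ := hMker F (hψ'inj (by rw [hψ', hψ, RingHom.comp_apply, hF]; simp))
        rw [map_mul, hφC, map_natCast] at hF
        rw [MvPowerSeries.coeff_C_mul, pow_succ']
        exact mul_dvd_mul_left _ (ih G' ((mul_eq_zero.1 hF).resolve_left hp0) m)
    refine MvPowerSeries.ext fun m => ?_
    rw [map_zero]
    refine IsHausdorff.haus (WittVector.isAdicCompleteIdealSpanP (p := p)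
      (k := ResidueField A)).toIsHausdorff _ fun n => ?_
    rw [SModEq.zero, smul_eq_mul, Ideal.mul_top, Ideal.span_singleton_pow,
      Ideal.mem_span_singleton]
    exact hdiv n F hF m
  exact ⟨d, hdim, ⟨(RingEquiv.ofBijective φ ⟨hφinj, hφsurj⟩).symm⟩⟩

end Fermat.Agent.CohenStructure
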