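import Fermat.Agent.CohenStructure.Lifting
import Fermat.Agent.RegularFactorial.Basic
import Mathlib.Algebra.Algebra.ZMod
import Mathlib.Algebra.Field.ZMod
import Mathlib.RingTheory.AdicCompletion.Completeness
import Mathlib.RingTheory.AdicCompletion.Functoriality
import Mathlib.RingTheory.AdicCompletion.RingHom
import Mathlib.RingTheory.MvPowerSeries.Equiv
import Mathlib.RingTheory.MvPowerSeries.Inverse
import Mathlib.RingTheory.MvPowerSeries.Rename

/-!
# The structure theorem of Cohen in equal characteristic
-/

set_option autoImplicit false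

noncomputable section

universe u

open IsLocalRing

namespace Fermat.Agent.CohenStructure

/-- A complete local ring over a perfect field has a coefficient field containing it. -/
theorem exists_coefficient_algHom (K A : Type*) [Field K] [PerfectField K] [CommRing A]
    [Algebra K A] [IsLocalRing A] [IsAdicComplete (maximalIdeal A) A] :
    ∃ ι : ResidueField A →ₐ[K] A, ∀ x, residue A (ι x) = x := by
  have := formallySmooth_of_perfectField K (ResidueField A)
  obtain ⟨ι, hι⟩ := Algebra.FormallySmooth.exists_mkₐ_comp_eq_of_isAdicComplete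
    (I := maximalIdeal A) (AlgHom.id K (ResidueField A))
  exact ⟨ι, fun x => AlgHom.congr_fun hι x⟩

/-- **Existence of coefficient fields** in equal characteristic. -/
theorem exists_coefficientRingHom (A : Type*) [CommRing A] [IsLocalRing A]
    [IsAdicComplete (maximalIdeal A) A] (p : ℕ) [CharP A p] [CharP (ResidueField A) p] :
    ∃ ι : ResidueField A →+* A, ∀ x, residue A (ι x) = x := by
  rcases CharP.char_is_prime_or_zero (ResidueField A) p with hp | rfl
  · have : Fact p.Prime := ⟨hp⟩
    let := ZMod.algebra A p
    obtain ⟨ι, hι⟩ := exists_coefficient_algHom (ZMod p) A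
    exact ⟨ι.toRingHom, hι⟩
  · have hu : ∀ z : nonZeroDivisors ℤ, IsUnit (Int.castRingHom A z) := fun z => by
      refine notMem_maximalIdeal.1 fun h => nonZeroDivisors.coe_ne_zero z ?_
      rw [← residue_eq_zero_iff] at h
      exact zero_dvd_iff.1 ((CharP.intCast_eq_zero_iff (ResidueField A) 0 (z : ℤ)).1
        (by simpa using h))
    let : Algebra ℚ A := (IsLocalization.lift hu).toAlgebra
    obtain ⟨ι, hι⟩ := exists_coefficient_algHom ℚ A
    exact ⟨ι.toRingHom, hι⟩

variable {k : Type*} [CommRing k] {A : Type*} [CommRing A] [IsLocalRing A]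

/-- Power series are evaluated at elements of the maximal ideal. -/
theorem exists_evalHom {σ : Type*} [Finite σ] [IsAdicComplete (maximalIdeal A) A] (ι : k →+* A)
    (x : σ → A)
    (hx : ∀ i, x i ∈ maximalIdeal A) :
    ∃ φ : MvPowerSeries σ k →+* A,
      (∀ c, φ (MvPowerSeries.C c) = ι c) ∧ ∀ i, φ (MvPowerSeries.X i) = x i := by
  classical
  let ev := MvPolynomial.eval₂Hom ι x
  have hle : ∀ n, MvPolynomial.idealOfVars σ k ^ n ≤ (maximalIdeal A ^ n).comap ev := fun n => by
    rw [← Ideal.map_le_iff_le_comap, Ideal.map_pow]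
    refine Ideal.pow_right_mono ?_ n
    rw [MvPolynomial.idealOfVars, Ideal.map_span, Ideal.span_le]
    rintro _ ⟨_, ⟨i, rfl⟩, rfl⟩
    simpa [ev] using hx i
  let f : (n : ℕ) → MvPowerSeries σ k →+* A ⧸ maximalIdeal A ^ n := fun n =>
    (Ideal.quotientMap (maximalIdeal A ^ n) ev (hle n)).comp
      (MvPowerSeries.truncTotalAlgHom σ k n).toRingHom
  have hf : ∀ {a b : ℕ} (h : a ≤ b),
      (Ideal.Quotient.factorPow (maximalIdeal A) h).comp (f b) = f a := fun {a b} h =>
    RingHom.ext fun q => by
      change Ideal.Quotient.mk _ (ev (MvPowerSeries.truncTotal b q)) =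
        Ideal.Quotient.mk _ (ev (MvPowerSeries.truncTotal a q))
      rw [Ideal.Quotient.eq, ← map_sub]
      exact hle a (MvPowerSeries.truncTotal_sub_truncTotal_mem_pow_idealOfVars h le_rfl q)
  refine ⟨IsAdicComplete.liftRingHom (maximalIdeal A) f hf, ?_⟩
  have key : ∀ q : MvPolynomial σ k,
      IsAdicComplete.liftRingHom (maximalIdeal A) f hf (q : MvPowerSeries σ k) = ev q := fun q => by
    refine sub_eq_zero.1 (IsHausdorff.haus ‹IsAdicComplete (maximalIdeal A) A›.toIsHausdorff _
      fun n => ?_)
    rw [smul_eq_mul, Ideal.mul_top, SModEq.zero, ← Ideal.Quotient.eq,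
      IsAdicComplete.mk_liftRingHom]
    exact congrArg (Ideal.quotientMap _ ev (hle n))
      ((MvPowerSeries.truncTotalAlgHom σ k n).commutes q)
  refine ⟨fun c => ?_, fun i => ?_⟩
  · simpa [ev] using key (MvPolynomial.C c)
  · simpa [ev] using key (MvPolynomial.X i)

/-- Evaluation at generators is surjective when `k` maps onto the residue field. -/
theorem evalHom_surjective {σ : Type*} [Finite σ] [IsHausdorff (maximalIdeal A) A]
    (φ : MvPowerSeries σ k →+* A)
    (hres : ∀ a : A, ∃ c : k, a - φ (MvPowerSeries.C c) ∈ maximalIdeal A)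
    (hgen : maximalIdeal A = Ideal.span (Set.range fun i => φ (MvPowerSeries.X i))) :
    Function.Surjective φ := by
  set I : Ideal (MvPowerSeries σ k) := Ideal.span (Set.range MvPowerSeries.X) with hI
  have hmap : I.map φ = maximalIdeal A := by
    rw [hI, Ideal.map_span, ← Set.range_comp, hgen]
    rfl
  have : IsHausdorff (I.map φ) A := by rw [hmap]; infer_instance
  refine surjective_of_mk_map_comp_surjective (I := I) φ fun y => ?_
  obtain ⟨a, rfl⟩ := Ideal.Quotient.mk_surjective y
  obtain ⟨c, hc⟩ := hres a
  refine ⟨MvPowerSeries.C c, ?_⟩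
  rw [RingHom.comp_apply, Ideal.Quotient.eq, hmap, ← neg_sub]
  exact neg_mem hc

/-- **Regular parameters are analytically independent.** -/
theorem evalHom_injective {k : Type*} [Field k] (n : ℕ) :
    ∀ (R : Type u) [CommRing R] [IsRegularLocalRing R],
    (maximalIdeal R).spanFinrank = n → ∀ φ : MvPowerSeries (Fin n) k →+* R,
      maximalIdeal R = Ideal.span (Set.range fun i => φ (MvPowerSeries.X i)) →
      Function.Injective φ := by
  induction n with
  | zero =>
    intro R _ _ _ φ _
    have hC : ∀ F : MvPowerSeries (Fin 0) k,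
        F = MvPowerSeries.C (MvPowerSeries.constantCoeff F) := fun F =>
      MvPowerSeries.ext fun m => by
        rw [Subsingleton.elim m 0]
        simp [MvPowerSeries.coeff_zero_eq_constantCoeff_apply]
    intro F F' h
    rw [hC F, hC F'] at h ⊢
    exact congrArg MvPowerSeries.C ((φ.comp MvPowerSeries.C).injective h)
  | succ n ih =>
    intro R _ _ hn φ hgen
    classical
    set x : Fin (n + 1) → R := fun i => φ (MvPowerSeries.X i) with hx
    have hlast : x (Fin.last n) ∈ maximalIdeal R :=
      hgen ▸ Ideal.subset_span (Set.mem_range_self _)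
    have hcard : ∀ {S : Type u} [CommRing S] (f : Fin n → S),
        (Ideal.span (Set.range f)).spanFinrank ≤ n := fun {S} _ f => by
      refine (Submodule.spanFinrank_span_le_ncard_of_finite (Set.finite_range f)).trans ?_
      rw [← Set.image_univ]
      exact (Set.ncard_image_le Set.finite_univ).trans (by rw [Set.ncard_univ, Nat.card_fin])
    have hx2 : x (Fin.last n) ∉ maximalIdeal R ^ 2 := fun h => by
      have hle : maximalIdeal R ≤ Ideal.span (Set.range fun i : Fin n => x i.castSucc) := by
        refine Submodule.le_of_le_smul_of_le_jacobson_bot (IsNoetherian.noetherian _)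
          (maximalIdeal_le_jacobson _) ?_
        conv_lhs => rw [hgen]
        refine Ideal.span_le.2 ?_
        rintro _ ⟨i, rfl⟩
        refine Fin.lastCases ?_ (fun i => ?_) i
        · refine Submodule.mem_sup_right ?_
          rw [Ideal.smul_eq_mul, ← pow_two]
          exact h
        · exact Submodule.mem_sup_left (Ideal.subset_span (Set.mem_range_self i))
      have heq : maximalIdeal R = Ideal.span (Set.range fun i : Fin n => x i.castSucc) :=
        le_antisymm hle (Ideal.span_le.2 (by
          rintro _ ⟨i, rfl⟩
          exact hgen ▸ Ideal.subset_span (Set.mem_range_self _)))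
      have := heq ▸ hcard fun i : Fin n => x i.castSucc
      omega
    have := RegularFactorial.isDomain_of_isRegularLocalRing R
    have := RegularFactorial.isRegularLocalRing_quotient hlast hx2
    set mk := Ideal.Quotient.mk (Ideal.span {x (Fin.last n)}) with hmk
    set ψ : MvPowerSeries (Fin n) k →+* R ⧸ Ideal.span {x (Fin.last n)} :=
      (mk.comp φ).comp (MvPowerSeries.rename (R := k) Fin.castSuccEmb).toRingHom with hψ
    have hgen' : maximalIdeal (R ⧸ Ideal.span {x (Fin.last n)}) =
        Ideal.span (Set.range fun i => ψ (MvPowerSeries.X i)) := by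
      refine le_antisymm ?_ (Ideal.span_le.2 ?_)
      · rw [← RegularFactorial.map_maximalIdeal_quotient hlast, hgen, Ideal.map_span, Ideal.span_le]
        rintro _ ⟨_, ⟨i, rfl⟩, rfl⟩
        refine Fin.lastCases ?_ (fun i => ?_) i
        · rw [SetLike.mem_coe, Ideal.Quotient.eq_zero_iff_mem.2 (Ideal.mem_span_singleton_self _)]
          exact zero_mem _
        · exact Ideal.subset_span ⟨i, by simp [hψ, hmk, hx]⟩
      · rintro _ ⟨i, rfl⟩
        rw [SetLike.mem_coe, ← RegularFactorial.map_maximalIdeal_quotient hlast]
        refine Ideal.mem_map_of_mem mk (?_ : _ ∈ maximalIdeal R)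
        rw [hgen]
        exact Ideal.subset_span ⟨i.castSucc, by simp [hx]⟩
    have hdim : (maximalIdeal (R ⧸ Ideal.span {x (Fin.last n)})).spanFinrank = n := by
      refine le_antisymm (hgen' ▸ hcard _) ?_
      have h1 := RegularFactorial.dim_le_dim_quotient_add_one hlast
      rw [← IsRegularLocalRing.spanFinrank_maximalIdeal,
        ← IsRegularLocalRing.spanFinrank_maximalIdeal, hn] at h1
      exact Nat.succ_le_succ_iff.1 (by exact_mod_cast h1)
    have hψinj := ih _ hdim ψ hgen'
    rw [RingHom.injective_iff_ker_eq_bot]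
    refine Submodule.eq_bot_of_le_smul_of_le_jacobson_bot
      (Ideal.span {MvPowerSeries.X (Fin.last n)}) _ (IsNoetherian.noetherian _) (fun F hF => ?_)
      ((le_maximalIdeal ?_).trans (maximalIdeal_le_jacobson _))
    · rw [RingHom.mem_ker] at hF
      set F₀ := MvPowerSeries.killCompl (R := k) Fin.castSuccEmb F with hF₀
      have hdvd : MvPowerSeries.X (Fin.last n) ∣ F - MvPowerSeries.rename Fin.castSuccEmb F₀ := by
        refine MvPowerSeries.X_dvd_iff.2 fun m hm => ?_
        obtain ⟨m₀, rfl⟩ : m ∈ Set.range (Finsupp.embDomain Fin.castSuccEmb) := by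
          rw [Finsupp.mem_range_embDomain_iff]
          intro i hi
          refine ⟨i.castPred fun e => ?_, by simp⟩
          rw [Finset.mem_coe, Finsupp.mem_support_iff, e] at hi
          exact hi hm
        rw [map_sub, MvPowerSeries.coeff_embDomain_rename, hF₀, MvPowerSeries.coeff_killCompl,
          sub_self]
      obtain ⟨G, hG⟩ := hdvd
      rw [sub_eq_iff_eq_add] at hG
      have h0 : F₀ = 0 := hψinj (by
        rw [map_zero]
        change mk (φ (MvPowerSeries.rename Fin.castSuccEmb F₀)) = 0
        have h := congrArg (fun z => mk (φ z)) hG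
        simp only [hF, map_zero, map_add, map_mul] at h
        rw [h, Ideal.Quotient.eq_zero_iff_mem.2 (Ideal.mem_span_singleton_self _), zero_mul,
          zero_add])
      rw [h0, map_zero, add_zero] at hG
      rw [hG]
      refine Submodule.smul_mem_smul (Ideal.mem_span_singleton_self _) (RingHom.mem_ker.2 ?_)
      have hne : x (Fin.last n) ≠ 0 := fun h => hx2 (h ▸ Ideal.zero_mem _)
      rw [hG, map_mul] at hF
      exact (mul_eq_zero.1 hF).resolve_left hne
    · refine fun h => ?_
      have := Ideal.span_singleton_eq_top.1 h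
      simp [MvPowerSeries.isUnit_iff_constantCoeff] at this

variable (A : Type u) [CommRing A]

/-- **Cohen**: a complete noetherian local ring of equal characteristic is a quotient of a power
series ring over its residue field. -/
theorem exists_powerSeries_surjection [IsLocalRing A] [IsNoetherianRing A]
    [IsAdicComplete (maximalIdeal A) A] (p : ℕ) [CharP A p] [CharP (ResidueField A) p] :
    ∃ φ : MvPowerSeries (Fin (maximalIdeal A).spanFinrank) (ResidueField A) →+* A,
      Function.Surjective φ ∧ (∀ c, residue A (φ (MvPowerSeries.C c)) = c) ∧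
      maximalIdeal A = Ideal.span (Set.range fun i => φ (MvPowerSeries.X i)) := by
  obtain ⟨ι, hι⟩ := exists_coefficientRingHom A p
  obtain ⟨G, hG, hspan⟩ := Submodule.FG.exists_span_finset_card_eq_spanFinrank
    (IsNoetherian.noetherian (maximalIdeal A))
  let x : Fin (maximalIdeal A).spanFinrank → A := fun i => (G.equivFinOfCardEq hG).symm i
  have hx : maximalIdeal A = Ideal.span (Set.range x) := by
    conv_lhs => rw [← hspan]
    rw [show Set.range x = (G : Set A) from (EquivLike.range_comp Subtype.val
      (G.equivFinOfCardEq hG).symm).trans Subtype.range_coe]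
  obtain ⟨φ, hφC, hφX⟩ := exists_evalHom ι x fun i =>
    hx.symm ▸ Ideal.subset_span (Set.mem_range_self i)
  have hgen : maximalIdeal A = Ideal.span (Set.range fun i => φ (MvPowerSeries.X i)) := by
    simp only [hφX]; exact hx
  refine ⟨φ, evalHom_surjective φ (fun a => ⟨residue A a, ?_⟩) hgen, fun c => ?_, hgen⟩
  · rw [← residue_eq_zero_iff, map_sub, hφC, hι, sub_self]
  · rw [hφC, hι]

/-- **Cohen**: a complete regular local ring of equal characteristic is a power series ring. -/
theorem nonempty_ringEquiv_powerSeries [IsRegularLocalRing A]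
    [IsAdicComplete (maximalIdeal A) A] (p : ℕ) [CharP A p] [CharP (ResidueField A) p] :
    ∃ d : ℕ, ringKrullDim A = d ∧
      Nonempty (A ≃+* MvPowerSeries (Fin d) (ResidueField A)) := by
  obtain ⟨φ, hφ, -, hgen⟩ := exists_powerSeries_surjection A p
  exact ⟨_, (IsRegularLocalRing.spanFinrank_maximalIdeal (R := A)).symm,
    ⟨(RingEquiv.ofBijective φ ⟨evalHom_injective _ A rfl φ hgen, hφ⟩).symm⟩⟩

end Fermat.Agent.CohenStructure
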